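/-
GAMMA-RED0 (helper8): integrality in a product of two rings, the ring-language half of the
closed-fibre dictionary (`Fb = F₁ × F₂`, `x̄ = (x̄₁, x̄₂)`).

* `s33t_isIntegral_prod_iff` : `(t₁, t₂)` is integral over `k[(x₁, x₂)]` iff `t₁` is integral over
  `k[x₁]` and `t₂` is integral over `k[x₂]`.
-/
import Mathlib
import Fermat.Agent.Lib.T2.Desc.Int

set_option autoImplicit false

namespace Fermat.Agent.S33

open Polynomial Fermat.Agent.T2

variable {k F₁ F₂ : Type*} [CommRing k] [CommRing F₁] [CommRing F₂] [Algebra k F₁] [Algebra k F₂]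

theorem s33t_aeval_fst (x : F₁ × F₂) (q : Polynomial k) : (aeval x q).1 = aeval x.1 q :=
  (Polynomial.aeval_algHom_apply (AlgHom.fst k F₁ F₂) x q).symm

theorem s33t_aeval_snd (x : F₁ × F₂) (q : Polynomial k) : (aeval x q).2 = aeval x.2 q :=
  (Polynomial.aeval_algHom_apply (AlgHom.snd k F₁ F₂) x q).symm

/-- an integrality relation multiplied by the variable -/
theorem s33t_isIntegral_of_mul_eq_zero (x f : F₁ × F₂) (d : ℕ) (q : Fin d → Polynomial k)
    (h : f * (f ^ d + ∑ i : Fin d, aeval x (q i) * f ^ (i : ℕ)) = 0) :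
    IsIntegral ↥(Algebra.adjoin k {x}) f := by
  rw [t2d_isIntegral_adjoin_iff]
  refine ⟨d + 1, Fin.cons 0 q, ?_⟩
  rw [Fin.sum_univ_succ]
  simp only [Fin.cons_zero, map_zero, zero_mul, zero_add, Fin.cons_succ, Fin.val_succ]
  rw [← h, mul_add, Finset.mul_sum, pow_succ, mul_comm f (f ^ d)]
  congr 1
  refine Finset.sum_congr rfl fun i _ => ?_
  rw [pow_succ]
  ring

/-- **integrality in a product** -/
theorem s33t_isIntegral_prod_iff (x t : F₁ × F₂) :
    IsIntegral ↥(Algebra.adjoin k {x}) t ↔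
      IsIntegral ↥(Algebra.adjoin k {x.1}) t.1 ∧ IsIntegral ↥(Algebra.adjoin k {x.2}) t.2 := by
  constructor
  · intro h
    obtain ⟨d, q, hq⟩ := (t2d_isIntegral_adjoin_iff (K := k) x t).mp h
    constructor
    · rw [t2d_isIntegral_adjoin_iff]
      refine ⟨d, q, ?_⟩
      have := congrArg Prod.fst hq
      simp only [Prod.fst_add, Prod.pow_fst, Prod.fst_sum, Prod.fst_mul, Prod.fst_zero,
        s33t_aeval_fst] at this
      exact this
    · rw [t2d_isIntegral_adjoin_iff]
      refine ⟨d, q, ?_⟩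
      have := congrArg Prod.snd hq
      simp only [Prod.snd_add, Prod.pow_snd, Prod.snd_sum, Prod.snd_mul, Prod.snd_zero,
        s33t_aeval_snd] at this
      exact this
  · rintro ⟨h1, h2⟩
    obtain ⟨d₁, q₁, hq₁⟩ := (t2d_isIntegral_adjoin_iff (K := k) x.1 t.1).mp h1
    obtain ⟨d₂, q₂, hq₂⟩ := (t2d_isIntegral_adjoin_iff (K := k) x.2 t.2).mp h2
    have e1 : IsIntegral ↥(Algebra.adjoin k {x}) ((t.1, 0) : F₁ × F₂) := by
      apply s33t_isIntegral_of_mul_eq_zero x _ d₁ q₁
      apply Prod.ext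
      · simp only [Prod.fst_mul, Prod.fst_add, Prod.pow_fst, Prod.fst_sum, s33t_aeval_fst,
          Prod.fst_zero]
        rw [hq₁, mul_zero]
      · simp only [Prod.snd_mul, Prod.snd_zero, zero_mul]
    have e2 : IsIntegral ↥(Algebra.adjoin k {x}) ((0, t.2) : F₁ × F₂) := by
      apply s33t_isIntegral_of_mul_eq_zero x _ d₂ q₂
      apply Prod.ext
      · simp only [Prod.fst_mul, Prod.fst_zero, zero_mul]
      · simp only [Prod.snd_mul, Prod.snd_add, Prod.pow_snd, Prod.snd_sum, s33t_aeval_snd,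
          Prod.snd_zero]
        rw [hq₂, mul_zero]
    have e3 : t = (t.1, 0) + (0, t.2) := by
      apply Prod.ext <;> simp
    rw [e3]
    exact e1.add e2

end Fermat.Agent.S33
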